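import Fermat.Agent.Root.SummaryPartitionParity
import Mathlib.NumberTheory.ZetaValues
import Mathlib.Analysis.SpecialFunctions.Trigonometric.DerivHyp
import Mathlib.Analysis.SpecialFunctions.Pow.Asymptotics

/-!
# The growth of the partition function

Erdős's induction: if `p (n - k)` is about `exp (c √(n - k))`, then in `n p n = ∑ σ k p (n - k)` the
sum is about `exp (c √n) ∑_m 1 / (c m / 2 √n) ^ 2`, which is `n exp (c √n)` for `c = π √(2/3)`.
-/

set_option autoImplicit false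

noncomputable section

namespace FA.PartitionGrowth

open Finset Filter
open scoped Topology ArithmeticFunction.sigma

/-- The number of partitions, as a real number. -/
def partCount (n : ℕ) : ℝ := Fintype.card (Nat.Partition n)

/-- The constant of Hardy and Ramanujan. -/
def hrConst : ℝ := Real.pi * Real.sqrt (2 / 3)

theorem hrConst_pos : 0 < hrConst := mul_pos Real.pi_pos (Real.sqrt_pos.2 (by norm_num))

theorem hrConst_sq : hrConst ^ 2 = 2 * Real.pi ^ 2 / 3 := by
  rw [hrConst, mul_pow, Real.sq_sqrt (by norm_num)]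
  ring

theorem one_le_partCount (n : ℕ) : 1 ≤ partCount n :=
  Nat.one_le_cast.2 Fintype.card_pos

theorem natCast_mul_partCount (n : ℕ) :
    (n : ℝ) * partCount n = ∑ k ∈ Icc 1 n, (σ 1 k : ℝ) * partCount (n - k) := by
  have h := congrArg (fun z : ℤ => (z : ℝ)) (FA.Summary.partition_sigma_recurrence n)
  simp only [Int.cast_mul, Int.cast_sum, Int.cast_natCast] at h
  rw [partCount, h]
  symm
  refine sum_subset (fun k hk => ?_) fun k hk hk' => ?_
  · rw [mem_Icc] at hk
    exact mem_range.2 (by omega)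
  · rw [mem_range] at hk
    rw [mem_Icc] at hk'
    obtain rfl : k = 0 := by omega
    simp

theorem sum_sigma_mul (n : ℕ) (w : ℕ → ℝ) :
    ∑ k ∈ Icc 1 n, (σ 1 k : ℝ) * w k =
      ∑ z ∈ (Icc 1 n ×ˢ Icc 1 n).filter (fun z => z.1 * z.2 ≤ n),
        (z.1 : ℝ) * w (z.1 * z.2) := by
  symm
  rw [← sum_fiberwise_of_maps_to (g := fun z : ℕ × ℕ => z.1 * z.2) (t := Icc 1 n) fun z hz => by
    rw [mem_filter, mem_product, mem_Icc, mem_Icc] at hz
    exact mem_Icc.2 ⟨Nat.mul_pos hz.1.1.1 hz.1.2.1, hz.2⟩]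
  refine sum_congr rfl fun k hk => ?_
  rw [mem_Icc] at hk
  have e : ((Icc 1 n ×ˢ Icc 1 n).filter fun z => z.1 * z.2 ≤ n).filter (fun z => z.1 * z.2 = k) =
      k.divisorsAntidiagonal := by
    ext ⟨d, m⟩
    simp only [mem_filter, mem_product, mem_Icc, Nat.mem_divisorsAntidiagonal]
    refine ⟨fun h => ⟨h.2, by omega⟩, fun h => ?_⟩
    have hd : 0 < d := Nat.pos_of_mul_pos_right (show 0 < d * m by omega)
    have hm : 0 < m := Nat.pos_of_mul_pos_left (show 0 < d * m by omega)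
    have := Nat.le_mul_of_pos_right d hm
    have := Nat.le_mul_of_pos_left m hd
    omega
  rw [e, ArithmeticFunction.sigma_one_apply, Nat.cast_sum, sum_mul,
    sum_congr rfl fun z hz => by rw [(Nat.mem_divisorsAntidiagonal.1 hz).1]]
  exact Nat.sum_divisorsAntidiagonal (fun d _ => (d : ℝ) * w k)

theorem geom_identity {q : ℝ} (hq : q ≠ 1) (D : ℕ) :
    ∑ d ∈ Icc 1 D, (d : ℝ) * q ^ d =
      q / (1 - q) ^ 2 - q ^ D * (q / (1 - q) ^ 2 + D * (q / (1 - q))) := by
  have h1 : 1 - q ≠ 0 := sub_ne_zero.2 hq.symm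
  induction D with
  | zero => simp
  | succ D ih =>
    rw [sum_Icc_succ_top (by omega), ih]
    push_cast
    field_simp
    ring

theorem one_sub_exp_bounds (x : ℝ) :
    x * Real.exp (-x) ≤ 1 - Real.exp (-x) ∧ 1 - Real.exp (-x) ≤ x := by
  refine ⟨?_, by linarith [Real.add_one_le_exp (-x)]⟩
  have := mul_le_mul_of_nonneg_right (Real.add_one_le_exp x) (Real.exp_pos (-x)).le
  rw [← Real.exp_add, add_neg_cancel, Real.exp_zero] at this
  linarith

theorem exp_div_sq_le {x : ℝ} (hx : 0 < x) :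
    Real.exp (-x) / (1 - Real.exp (-x)) ^ 2 ≤ 1 / x ^ 2 := by
  have hq : Real.exp (-x) < 1 := Real.exp_lt_one_iff.2 (neg_lt_zero.2 hx)
  have h0 : 0 < 1 - Real.exp (-x) := sub_pos.2 hq
  rw [div_le_div_iff₀ (by positivity) (by positivity), one_mul]
  have hs : x * Real.exp (-(x / 2)) ≤ 1 - Real.exp (-x) := by
    have h := Real.self_le_sinh_iff.2 (show (0 : ℝ) ≤ x / 2 by linarith)
    rw [Real.sinh_eq] at h
    have h2 := mul_le_mul_of_nonneg_right (show x ≤ Real.exp (x / 2) - Real.exp (-(x / 2)) by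
      linarith) (Real.exp_pos (-(x / 2))).le
    rw [sub_mul, ← Real.exp_add, ← Real.exp_add, add_neg_cancel, Real.exp_zero,
      show -(x / 2) + -(x / 2) = -x by ring] at h2
    exact h2
  have h3 := pow_le_pow_left₀ (by positivity) hs 2
  rw [mul_pow, ← Real.exp_nat_mul, show ((2 : ℕ) : ℝ) * -(x / 2) = -x by push_cast; ring] at h3
  linarith

theorem sum_mul_exp_le {x : ℝ} (hx : 0 < x) (D : ℕ) :
    ∑ d ∈ Icc 1 D, (d : ℝ) * Real.exp (-x) ^ d ≤ 1 / x ^ 2 := by
  have hq : Real.exp (-x) < 1 := Real.exp_lt_one_iff.2 (neg_lt_zero.2 hx)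
  have h0 : 0 < 1 - Real.exp (-x) := sub_pos.2 hq
  have hD : 0 ≤ Real.exp (-x) ^ D *
      (Real.exp (-x) / (1 - Real.exp (-x)) ^ 2 + D * (Real.exp (-x) / (1 - Real.exp (-x)))) := by
    positivity
  rw [geom_identity hq.ne]
  exact (sub_le_self _ hD).trans (exp_div_sq_le hx)

theorem le_sum_mul_exp {x : ℝ} (hx : 0 < x) (D : ℕ) :
    (Real.exp (-x) - (1 + D * x) * Real.exp (-x) ^ D) / x ^ 2 ≤
      ∑ d ∈ Icc 1 D, (d : ℝ) * Real.exp (-x) ^ d := by
  have hq : Real.exp (-x) < 1 := Real.exp_lt_one_iff.2 (neg_lt_zero.2 hx)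
  have h0 : 0 < 1 - Real.exp (-x) := sub_pos.2 hq
  obtain ⟨h1, h2⟩ := one_sub_exp_bounds x
  rw [geom_identity hq.ne, sub_div]
  refine sub_le_sub ?_ ?_
  · exact div_le_div_of_nonneg_left (Real.exp_pos _).le (by positivity)
      (pow_le_pow_left₀ h0.le h2 2)
  · have hA := exp_div_sq_le hx
    have hB : Real.exp (-x) / (1 - Real.exp (-x)) ≤ 1 / x := by
      rw [div_le_div_iff₀ h0 hx]
      linarith
    refine (mul_le_mul_of_nonneg_left (add_le_add hA (mul_le_mul_of_nonneg_left hB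
      (Nat.cast_nonneg D))) (by positivity)).trans (le_of_eq ?_)
    field_simp

theorem sum_inv_sq_le (M : ℕ) : ∑ m ∈ Icc 1 M, 1 / ((m : ℝ) ^ 2) ≤ Real.pi ^ 2 / 6 :=
  sum_le_hasSum _ (fun _ _ => by positivity) hasSum_zeta_two

/-- **The upper bound.** -/
theorem partCount_le (n : ℕ) : partCount n ≤ Real.exp (hrConst * Real.sqrt n) := by
  induction n using Nat.strong_induction_on with
  | _ n ih =>
    rcases Nat.eq_zero_or_pos n with rfl | hn
    · simp [partCount]
    obtain ⟨a, ha⟩ : ∃ a, a = hrConst / (2 * Real.sqrt n) := ⟨_, rfl⟩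
    have hs : 0 < Real.sqrt n := Real.sqrt_pos.2 (Nat.cast_pos.2 hn)
    have ha0 : 0 < a := ha ▸ div_pos hrConst_pos (by linarith)
    have hstep : ∀ k ∈ Icc 1 n, (σ 1 k : ℝ) * partCount (n - k) ≤
        (σ 1 k : ℝ) * (Real.exp (hrConst * Real.sqrt n) * Real.exp (-(a * k))) := by
      intro k hk
      rw [mem_Icc] at hk
      refine mul_le_mul_of_nonneg_left ((ih _ (by omega)).trans ?_) (Nat.cast_nonneg _)
      rw [← Real.exp_add, Real.exp_le_exp]
      have h1 : Real.sqrt ((n - k : ℕ) : ℝ) ≤ Real.sqrt n - k / (2 * Real.sqrt n) := by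
        have hkn : (k : ℝ) ≤ n := Nat.cast_le.2 hk.2
        have hsq : Real.sqrt n * Real.sqrt n = n := Real.mul_self_sqrt (Nat.cast_nonneg n)
        have h2 : (k : ℝ) / (2 * Real.sqrt n) ≤ Real.sqrt n := by
          rw [div_le_iff₀ (by positivity)]
          nlinarith
        rw [Real.sqrt_le_left (sub_nonneg.2 h2), Nat.cast_sub hk.2, sub_sq, pow_two, hsq]
        have e : 2 * Real.sqrt n * (k / (2 * Real.sqrt n)) = k := by field_simp
        nlinarith [sq_nonneg ((k : ℝ) / (2 * Real.sqrt n))]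
      have h3 := mul_le_mul_of_nonneg_left h1 hrConst_pos.le
      rw [ha, div_mul_eq_mul_div]
      linarith [show hrConst * (k / (2 * Real.sqrt n)) = hrConst * k / (2 * Real.sqrt n) by ring]
    have hsum : ∑ k ∈ Icc 1 n, (σ 1 k : ℝ) * Real.exp (-(a * k)) ≤ n := by
      rw [sum_sigma_mul]
      refine (sum_le_sum_of_subset_of_nonneg (filter_subset _ _)
        fun z _ _ => by positivity).trans ?_
      rw [sum_product_right]
      refine (sum_le_sum (g := fun m : ℕ => 1 / a ^ 2 * (1 / (m : ℝ) ^ 2)) fun m hm => ?_).trans ?_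
      · rw [mem_Icc] at hm
        refine le_trans (le_of_eq (sum_congr rfl fun d _ => ?_))
          ((sum_mul_exp_le (mul_pos ha0 (Nat.cast_pos.2 hm.1)) n).trans_eq ?_)
        · rw [← Real.exp_nat_mul]
          push_cast
          ring_nf
        · rw [mul_pow, one_div_mul_one_div]
      · rw [← mul_sum]
        refine (mul_le_mul_of_nonneg_left (sum_inv_sq_le n) (by positivity)).trans (le_of_eq ?_)
        rw [ha, div_pow, mul_pow, Real.sq_sqrt (Nat.cast_nonneg n), hrConst_sq]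
        field_simp
        ring
    have h := (natCast_mul_partCount n).trans_le (sum_le_sum hstep)
    simp only [mul_left_comm (σ 1 _ : ℝ) (Real.exp (hrConst * Real.sqrt n)), ← mul_sum] at h
    refine le_of_mul_le_mul_left (h.trans ?_) (Nat.cast_pos.2 hn : (0 : ℝ) < n)
    rw [mul_comm (n : ℝ)]
    exact mul_le_mul_of_nonneg_left hsum (Real.exp_pos _).le

theorem exists_eventually_sum_ge {b : ℝ} (hb : 0 < b) (hb2 : b ^ 2 < Real.pi ^ 2 / 6) {η : ℝ}
    (hη : 0 < η) : ∀ᶠ n : ℕ in atTop, (n : ℝ) ≤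
      ∑ z ∈ (Icc 1 n ×ˢ Icc 1 n).filter (fun z => ((z.1 * z.2 : ℕ) : ℝ) ≤ η * n),
        (z.1 : ℝ) * Real.exp (-(b / Real.sqrt n * (z.1 * z.2 : ℕ))) := by
  have hz : Tendsto (fun M : ℕ => ∑ m ∈ range M, 1 / (m : ℝ) ^ 2) atTop (𝓝 (Real.pi ^ 2 / 6)) :=
    hasSum_zeta_two.tendsto_sum_nat
  obtain ⟨M, hM, hM1⟩ := ((hz.eventually (eventually_gt_nhds hb2)).and
    (eventually_ge_atTop 1)).exists
  obtain ⟨D, hD⟩ : ∃ D : ℕ → ℕ, D = fun n => min n ⌊η * n / M⌋₊ := ⟨_, rfl⟩
  have hs : Tendsto (fun n : ℕ => Real.sqrt n) atTop atTop :=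
    Real.tendsto_sqrt_atTop.comp tendsto_natCast_atTop_atTop
  have hterm : ∀ m ∈ Icc 1 M, Tendsto (fun n : ℕ =>
      (Real.exp (-(b * m / Real.sqrt n)) - (1 + D n * (b * m / Real.sqrt n)) *
        Real.exp (-(b * m / Real.sqrt n)) ^ D n) / (b * m) ^ 2) atTop
      (𝓝 (1 / (b * m) ^ 2)) := by
    intro m hm
    rw [mem_Icc] at hm
    have hbm : 0 < b * m := mul_pos hb (Nat.cast_pos.2 hm.1)
    have hy : Tendsto (fun n : ℕ => (D n : ℝ) * (b * m / Real.sqrt n)) atTop atTop := by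
      refine tendsto_atTop_mono' atTop ?_ (hs.const_mul_atTop
        (show 0 < min 1 (η / M) / 2 * (b * m) by positivity))
      filter_upwards [(tendsto_natCast_atTop_atTop (R := ℝ)).eventually_ge_atTop
        (2 / min 1 (η / M))] with n hn
      have hμ : 0 < min 1 (η / (M : ℝ)) := lt_min one_pos (by positivity)
      have h2 : 2 ≤ min 1 (η / M) * n := by
        rw [div_le_iff₀ hμ] at hn
        linarith
      have hn0 : (0 : ℝ) < n := by nlinarith [min_le_left 1 (η / (M : ℝ))]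
      have h1 : min 1 (η / M) * n - 1 ≤ (D n : ℝ) := by
        rw [hD, Nat.cast_min]
        refine le_min ?_ ?_
        · nlinarith [min_le_left 1 (η / (M : ℝ))]
        · have := (Nat.lt_floor_add_one (η * n / M)).le
          have h3 := mul_le_mul_of_nonneg_right (min_le_right 1 (η / (M : ℝ))) hn0.le
          rw [div_mul_eq_mul_div] at h3
          linarith
      rw [mul_div_assoc', le_div_iff₀ (Real.sqrt_pos.2 hn0)]
      rw [mul_assoc _ (Real.sqrt n) (Real.sqrt n), Real.mul_self_sqrt hn0.le]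
      nlinarith [mul_le_mul_of_nonneg_right h1 hbm.le, mul_le_mul_of_nonneg_right h2 hbm.le]
    have e1 : Tendsto (fun n : ℕ => Real.exp (-(b * m / Real.sqrt n))) atTop (𝓝 1) := by
      have := (hs.const_div_atTop (b * m)).neg
      rw [neg_zero] at this
      simpa [Function.comp_def] using (Real.continuous_exp.tendsto 0).comp this
    have e2 : Tendsto (fun y : ℝ => (1 + y) * Real.exp (-y)) atTop (𝓝 0) := by
      have h1 := Real.tendsto_exp_neg_atTop_nhds_zero.add
        (Real.tendsto_pow_mul_exp_neg_atTop_nhds_zero 1)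
      simpa [add_mul] using h1
    have e3 := e1.sub (e2.comp hy)
    rw [sub_zero] at e3
    refine (e3.div_const ((b * m) ^ 2)).congr fun n => ?_
    simp only [Function.comp_apply]
    rw [← Real.exp_nat_mul, mul_neg]
  have hlim := tendsto_finsetSum (Icc 1 M) hterm
  have hgt : 1 < ∑ m ∈ Icc 1 M, 1 / (b * (m : ℝ)) ^ 2 := by
    have e : ∑ m ∈ Icc 1 M, 1 / (b * (m : ℝ)) ^ 2 = 1 / b ^ 2 * ∑ m ∈ Icc 1 M, 1 / (m : ℝ) ^ 2 := by
      rw [mul_sum]
      exact sum_congr rfl fun m _ => by rw [mul_pow, one_div_mul_one_div]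
    have h1 : ∑ m ∈ range M, 1 / (m : ℝ) ^ 2 ≤ ∑ m ∈ Icc 1 M, 1 / (m : ℝ) ^ 2 := by
      refine (sum_le_sum_of_subset_of_nonneg (t := insert 0 (Icc 1 M)) (fun m hm => ?_)
        fun _ _ _ => by positivity).trans (le_of_eq (by simp))
      rw [mem_range] at hm
      rw [mem_insert, mem_Icc]
      omega
    rw [e, div_mul_eq_mul_div, one_mul, one_lt_div (by positivity)]
    linarith
  filter_upwards [hlim.eventually (eventually_gt_nhds hgt), eventually_ge_atTop M] with n hn hnM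
  have hnp : (0 : ℝ) < n := Nat.cast_pos.2 (by omega)
  refine le_trans ?_ (sum_le_sum_of_subset_of_nonneg (s := Icc 1 (D n) ×ˢ Icc 1 M) (fun z hz => ?_)
    fun z _ _ => by positivity)
  · rw [sum_product_right]
    refine le_trans ?_ (sum_le_sum fun m hm =>
      (le_sum_mul_exp (x := b * m / Real.sqrt n) (div_pos (mul_pos hb (Nat.cast_pos.2
        (mem_Icc.1 hm).1)) (Real.sqrt_pos.2 hnp)) (D n)).trans_eq (sum_congr rfl fun d _ => ?_))
    · have e : ∀ A B : ℝ, A / (B / Real.sqrt n) ^ 2 = n * (A / B ^ 2) := fun A B => by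
        rw [div_pow, Real.sq_sqrt hnp.le, div_div_eq_mul_div]
        ring
      simp only [e]
      rw [← mul_sum]
      exact le_mul_of_one_le_right hnp.le hn.le
    · rw [← Real.exp_nat_mul]
      push_cast
      ring_nf
  · rw [mem_product, mem_Icc, mem_Icc] at hz
    have hDn : D n ≤ n := hD ▸ min_le_left _ _
    rw [mem_filter, mem_product, mem_Icc, mem_Icc]
    refine ⟨⟨⟨hz.1.1, by omega⟩, hz.2.1, by omega⟩, ?_⟩
    have h1 : ((D n : ℕ) : ℝ) * M ≤ η * n := by
      rw [← le_div_iff₀ (Nat.cast_pos.2 (by omega))]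
      exact (Nat.cast_le.2 (hD ▸ min_le_right _ _)).trans (Nat.floor_le (by positivity))
    exact (Nat.cast_le.2 (Nat.mul_le_mul hz.1.2 hz.2.2)).trans (by push_cast; linarith)

/-- **The lower bound.** -/
theorem exists_le_partCount {ε : ℝ} (hε : 0 < ε) :
    ∃ δ : ℝ, 0 < δ ∧ ∀ n : ℕ, δ * Real.exp ((hrConst - ε) * Real.sqrt n) ≤ partCount n := by
  rcases le_or_gt (hrConst - ε) 0 with h0 | hc
  · refine ⟨1, one_pos, fun n => ?_⟩
    rw [one_mul]
    exact (Real.exp_le_one_iff.2 (mul_nonpos_of_nonpos_of_nonneg h0 (Real.sqrt_nonneg _))).trans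
      (one_le_partCount n)
  obtain ⟨c, hcdef⟩ : ∃ c, c = hrConst - ε := ⟨_, rfl⟩
  rw [← hcdef] at hc ⊢
  obtain ⟨η, hηdef⟩ : ∃ η, η = ε / hrConst := ⟨_, rfl⟩
  have hη0 : 0 < η := hηdef ▸ div_pos hε hrConst_pos
  have hη1 : η < 1 := by
    rw [hηdef, div_lt_one hrConst_pos]
    linarith
  have hb0 : 0 < c / (2 - η) := div_pos hc (by linarith)
  have hb2 : (c / (2 - η)) ^ 2 < Real.pi ^ 2 / 6 := by
    have h1 : c / (2 - η) < hrConst / 2 := by
      rw [div_lt_div_iff₀ (by linarith) two_pos]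
      have : hrConst * η = ε := by
        rw [hηdef]
        field_simp [hrConst_pos.ne']
      nlinarith
    refine (pow_lt_pow_left₀ h1 hb0.le two_ne_zero).trans_le (le_of_eq ?_)
    rw [div_pow, hrConst_sq]
    ring
  obtain ⟨N₀, hN₀⟩ := eventually_atTop.1 (exists_eventually_sum_ge hb0 hb2 hη0)
  refine ⟨Real.exp (-(c * Real.sqrt N₀)), Real.exp_pos _, fun n => ?_⟩
  induction n using Nat.strong_induction_on with
  | _ n ih =>
    rw [← Real.exp_add]
    rcases lt_or_ge n (N₀ + 1) with hn | hn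
    · refine (Real.exp_le_one_iff.2 ?_).trans (one_le_partCount n)
      have := mul_le_mul_of_nonneg_left (Real.sqrt_le_sqrt (Nat.cast_le.2
        (show n ≤ N₀ by omega) : (n : ℝ) ≤ N₀)) hc.le
      linarith
    have hnp : (0 : ℝ) < n := Nat.cast_pos.2 (by omega)
    obtain ⟨E, hE⟩ : ∃ E, E = -(c * Real.sqrt N₀) + c * Real.sqrt n := ⟨_, rfl⟩
    rw [← hE]
    refine le_of_mul_le_mul_left ?_ hnp
    rw [natCast_mul_partCount, sum_sigma_mul n fun k => partCount (n - k)]
    refine le_trans (le_trans (mul_le_mul_of_nonneg_right (hN₀ n (by omega)) (Real.exp_pos E).le)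
      ?_) (sum_le_sum_of_subset_of_nonneg (s := (Icc 1 n ×ˢ Icc 1 n).filter
        fun z => ((z.1 * z.2 : ℕ) : ℝ) ≤ η * n) (fun z hz => ?_) fun z _ _ =>
        mul_nonneg (Nat.cast_nonneg _) (zero_le_one.trans (one_le_partCount _)))
    · rw [sum_mul]
      refine sum_le_sum fun z hz => ?_
      rw [mem_filter, mem_product, mem_Icc, mem_Icc] at hz
      rw [mul_assoc, ← Real.exp_add]
      obtain ⟨k, hk⟩ : ∃ k, k = z.1 * z.2 := ⟨_, rfl⟩
      rw [← hk] at hz ⊢
      have hk1 : 1 ≤ k := hk ▸ Nat.mul_pos hz.1.1.1 hz.1.2.1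
      have hkn : k ≤ n := Nat.cast_le.1 (hz.2.trans (mul_le_of_le_one_left hnp.le hη1.le))
      refine mul_le_mul_of_nonneg_left (le_trans ?_ (ih (n - k) (by omega))) (Nat.cast_nonneg _)
      rw [← Real.exp_add, Real.exp_le_exp, hE]
      have hs : 0 < Real.sqrt n := Real.sqrt_pos.2 hnp
      have hsq : Real.sqrt n * Real.sqrt n = n := Real.mul_self_sqrt hnp.le
      obtain ⟨t, ht⟩ : ∃ t, t = Real.sqrt ((n - k : ℕ) : ℝ) := ⟨_, rfl⟩
      have ht2 : t * t = (n : ℝ) - k := by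
        rw [ht, Real.mul_self_sqrt (Nat.cast_nonneg _), Nat.cast_sub hkn]
      have ht0 : 0 ≤ t := ht ▸ Real.sqrt_nonneg _
      have htl : (1 - η) * Real.sqrt n ≤ t := by
        rw [ht, Real.le_sqrt (mul_nonneg (by linarith) hs.le) (Nat.cast_nonneg _),
          Nat.cast_sub hkn, mul_pow, Real.sq_sqrt hnp.le]
        nlinarith [mul_le_mul_of_nonneg_right (show (1 - η) ^ 2 ≤ 1 - η by nlinarith) hnp.le]
      rw [← ht]
      have key : Real.sqrt n - t ≤ k / ((2 - η) * Real.sqrt n) := by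
        rw [le_div_iff₀ (mul_pos (by linarith) hs)]
        have : 0 ≤ Real.sqrt n - t := by nlinarith
        nlinarith
      have h := mul_le_mul_of_nonneg_left key hc.le
      rw [show c * (k / ((2 - η) * Real.sqrt n)) = c / (2 - η) / Real.sqrt n * k by
        rw [div_div, div_mul_eq_mul_div, mul_div_assoc]] at h
      linarith
    · rw [mem_filter] at hz ⊢
      exact ⟨hz.1, Nat.cast_le.1 (hz.2.trans (mul_le_of_le_one_left hnp.le hη1.le))⟩

end FA.PartitionGrowth
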